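/-
S12 programme, VELU "points" leaf (helper44, twin/hedge of `VeluAn91/Points`): the image of a point
`R ∉ ⟨Q⟩`, `p • R = 0` under Vélu's formulas is a nonsingular point of exact order `p` on
`veluCurve W Q p`.

* `veluX_pointEquiv`, `veluY_pointEquiv` : for `curve L = C • W`, `IsCyclicSup L L' p t₀`,
  `Q ↔ t₀`, `R ↔ z ∉ L'`: `veluX W Q p R = u² ℘[L'] z + r`,
  `veluY W Q p R = u³ ℘'[L'] z / 2 + u² s ℘[L'] z + t`;
* `exists_some_eq_pointEquiv` : hence `(veluX, veluY)(R)` is the point
  `pointEquiv h' (toPoint L' z)` of `veluCurve W Q p` (`h' = VeluC51.curve_sup_eq`);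
* `velu_C_point` : the statement over `ℂ` for an arbitrary elliptic `W`, `Q` of prime order `p`;
* `velu_Q_point` : the same over `ℚbar` for `V / ℚ` (descent `VeluQ51.exists_point_of_C`).
-/
import Fermat.Agent.MAZ.Unif18.Unif
import Fermat.Agent.S12P.VeluAn91.Match
import Fermat.Agent.S12P.VeluC51.Curve
import Fermat.Agent.S12P.VeluQ51.Delta

set_option autoImplicit false
set_option linter.style.haveILetI false

open scoped PeriodPair

noncomputable section

namespace Fermat.Agent.S12P.Points44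

open PeriodPair WeierstrassCurve UpperHalfPlane
open Fermat.Agent.MAZ Fermat.Agent.MAZ.Unif18 Fermat.Agent.MAZ.EF86 Fermat.Agent.X0
open Fermat.Agent.X0.LatticeEis
open scoped WeierstrassCurve.Affine
open Fermat.Agent.S05.Transport Fermat.Agent.S12P.VeluDef51 Fermat.Agent.S12P.VeluC51
open Fermat.Agent.S12P.VeluAn91 Fermat.Agent.S12P.VeluQ51
open Fermat.Agent.MAZ.ModInv (xco yco xco_some yco_some)

section Lattice

variable {W : WeierstrassCurve ℂ} {C : VariableChange ℂ} {L L' : PeriodPair}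
  (h : curve L = C • W) {p : ℕ} {t₀ : ℂ} (hcyc : IsCyclicSup L L' p t₀)

/-- `R + k • Q ↔ z + k t₀`. -/
theorem pointEquiv_add_nsmul (z : ℂ) (k : ℕ) :
    pointEquiv h (toPoint L z) + k • pointEquiv h (toPoint L t₀) =
      pointEquiv h (toPoint L (z + (k : ℂ) * t₀)) := by
  rw [nsmul_eq_pointEquiv_toPoint, ← map_add, ← toPoint_add]

include hcyc in
/-- **Vélu's abscissa in the uniformisation.** -/
theorem veluX_pointEquiv {z : ℂ} (hz : z ∉ L'.lattice) :
    veluX W (pointEquiv h (toPoint L t₀)) p (pointEquiv h (toPoint L z)) =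
      (C.u : ℂ) ^ 2 * ℘[L'] z + C.r := by
  unfold veluX
  have hterm : ∀ k ∈ Finset.Ico 1 p,
      xco W (pointEquiv h (toPoint L z) + k • pointEquiv h (toPoint L t₀)) -
        xco W (k • pointEquiv h (toPoint L t₀)) =
      (C.u : ℂ) ^ 2 * (℘[L] (z + (k : ℂ) * t₀) - ℘[L] ((k : ℂ) * t₀)) := by
    intro k hk
    rw [pointEquiv_add_nsmul, xco_pointEquiv_toPoint h (add_natCast_mul_notMem hcyc hz k),
      nsmul_eq_pointEquiv_toPoint, xco_pointEquiv_toPoint h (mul_notMem hcyc hk)]
    ring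
  rw [Finset.sum_congr rfl hterm, ← Finset.mul_sum,
    xco_pointEquiv_toPoint h (notMem_of_notMem_sup hcyc hz), wp_velu hcyc z]
  ring

include hcyc in
/-- **Vélu's ordinate in the uniformisation.** -/
theorem veluY_pointEquiv {z : ℂ} (hz : z ∉ L'.lattice) :
    veluY W (pointEquiv h (toPoint L t₀)) p (pointEquiv h (toPoint L z)) =
      (C.u : ℂ) ^ 3 * (℘'[L'] z / 2) + (C.u : ℂ) ^ 2 * C.s * ℘[L'] z + C.t := by
  unfold veluY
  have hterm : ∀ k ∈ Finset.Ico 1 p,
      yco W (pointEquiv h (toPoint L z) + k • pointEquiv h (toPoint L t₀)) -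
        yco W (k • pointEquiv h (toPoint L t₀)) =
      ((C.u : ℂ) ^ 3 / 2 * ℘'[L] (z + (k : ℂ) * t₀) +
        (C.u : ℂ) ^ 2 * C.s * (℘[L] (z + (k : ℂ) * t₀) - ℘[L] ((k : ℂ) * t₀))) -
      (C.u : ℂ) ^ 3 / 2 * ℘'[L] ((k : ℂ) * t₀) := by
    intro k hk
    rw [pointEquiv_add_nsmul, yco_pointEquiv_toPoint h (add_natCast_mul_notMem hcyc hz k),
      nsmul_eq_pointEquiv_toPoint, yco_pointEquiv_toPoint h (mul_notMem hcyc hk)]
    ring
  rw [Finset.sum_congr rfl hterm, Finset.sum_sub_distrib, Finset.sum_add_distrib,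
    ← Finset.mul_sum, ← Finset.mul_sum, ← Finset.mul_sum, sum_dwp_eq_zero hcyc,
    yco_pointEquiv_toPoint h (notMem_of_notMem_sup hcyc hz), wp_velu hcyc z, dwp_velu hcyc z]
  ring

include hcyc in
/-- The Vélu image of `R ↔ z ∉ L'` is the point `↔ z` of the curve of the superlattice. -/
theorem exists_some_eq_pointEquiv (hp : p.Prime) {z : ℂ} (hz : z ∉ L'.lattice) :
    ∃ hns : (veluCurve W (pointEquiv h (toPoint L t₀)) p).toAffine.Nonsingular
        (veluX W (pointEquiv h (toPoint L t₀)) p (pointEquiv h (toPoint L z)))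
        (veluY W (pointEquiv h (toPoint L t₀)) p (pointEquiv h (toPoint L z))),
      Affine.Point.some _ _ hns =
        pointEquiv (curve_sup_eq h hcyc hp (VeluC51.lattice_eq_sup hcyc)) (toPoint L' z) := by
  have h' := curve_sup_eq h hcyc hp (VeluC51.lattice_eq_sup hcyc)
  have hX := veluX_pointEquiv h hcyc hz
  have hY := veluY_pointEquiv h hcyc hz
  have hns0 : (veluCurve W (pointEquiv h (toPoint L t₀)) p).toAffine.Nonsingular
      (vcX C (℘[L'] z)) (vcY C (℘[L'] z) (℘'[L'] z / 2)) :=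
    (nonsingular_iff_vc h' _ _).mpr (curve_nonsingular_wp L' hz)
  have hns : (veluCurve W (pointEquiv h (toPoint L t₀)) p).toAffine.Nonsingular
      (veluX W (pointEquiv h (toPoint L t₀)) p (pointEquiv h (toPoint L z)))
      (veluY W (pointEquiv h (toPoint L t₀)) p (pointEquiv h (toPoint L z))) := by
    rw [hX, hY]
    exact hns0
  refine ⟨hns, ?_⟩
  rw [toPoint_of_notMem L' hz, pointEquiv_some]
  exact some_congr hX hY _ _

include hcyc in
/-- **Points, lattice form**: nonsingular and of exact order `p`. -/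
theorem exists_point_of_lattice (hp : p.Prime) {z : ℂ} (hz : z ∉ L'.lattice)
    (hpz : (p : ℂ) * z ∈ L'.lattice) :
    ∃ hns : (veluCurve W (pointEquiv h (toPoint L t₀)) p).toAffine.Nonsingular
        (veluX W (pointEquiv h (toPoint L t₀)) p (pointEquiv h (toPoint L z)))
        (veluY W (pointEquiv h (toPoint L t₀)) p (pointEquiv h (toPoint L z))),
      addOrderOf (Affine.Point.some _ _ hns) = p := by
  obtain ⟨hns, he⟩ := exists_some_eq_pointEquiv h hcyc hp hz
  refine ⟨hns, ?_⟩
  rw [he]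
  haveI : Fact p.Prime := ⟨hp⟩
  apply addOrderOf_eq_prime
  · rw [← map_nsmul]
    have e : p • toPoint L' z = toPoint L' ((p : ℂ) * z) := by
      have := map_nsmul (toPointHom L') p z
      simpa [nsmul_eq_mul] using this.symm
    rw [e, toPoint_of_mem L' hpz, map_zero]
  · intro h0
    have : toPoint L' z = 0 := (AddEquiv.map_eq_zero_iff _).mp h0
    exact hz ((toPoint_eq_zero_iff L').mp this)

end Lattice

/-- **VELU over `ℂ`, points.** For an elliptic curve `W/ℂ`, `Q` of prime order `p` and a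
`p`-torsion point `R ∉ ⟨Q⟩`, Vélu's formulas give a nonsingular point of exact order `p` on
`veluCurve W Q p`. -/
theorem velu_C_point (W : WeierstrassCurve ℂ) [W.IsElliptic] {p : ℕ} (hp : p.Prime)
    (Q : W.toAffine.Point) (hQ : addOrderOf Q = p) (R : W.toAffine.Point) (hR : p • R = 0)
    (hRQ : R ∉ AddSubgroup.zmultiples Q) :
    ∃ hns : (veluCurve W Q p).toAffine.Nonsingular (veluX W Q p R) (veluY W Q p R),
      addOrderOf (Affine.Point.some _ _ hns) = p := by
  obtain ⟨τ, u, hu, C, h, -, hpt⟩ := exists_tau W hp Q hQ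
  have hcyc := isCyclicSup_std hp τ hu
  subst hpt
  set L := scalePair u hu (pairOfUHP τ) with hL
  obtain ⟨z, hz⟩ := toPoint_surjective L ((pointEquiv h).symm R)
  have hRz : R = pointEquiv h (toPoint L z) := by
    rw [hz, AddEquiv.apply_symm_apply]
  subst hRz
  have hznot : z ∉ (scalePair (u / p) (div_ne_zero hu (Nat.cast_ne_zero.mpr hp.ne_zero))
      (pairOfUHP (natMulUHP p hp.pos τ))).lattice := by
    intro hm
    apply hRQ
    obtain ⟨k, -, hk⟩ := hcyc.cover z hm
    have e : z = (k : ℂ) * (u / p) + (z - (k : ℂ) * (u / p)) := by ring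
    have hk' : toPoint L z = toPoint L ((k : ℂ) * (u / p)) := by
      conv_lhs => rw [e]
      exact toPoint_add_mem L _ hk
    rw [hk', ← nsmul_eq_pointEquiv_toPoint]
    exact AddSubgroup.nsmul_mem_zmultiples _ k
  have hpz : (p : ℂ) * z ∈ L.lattice := by
    rw [← toPoint_eq_zero_iff]
    have e : toPoint L ((p : ℂ) * z) = p • toPoint L z := by
      have := map_nsmul (toPointHom L) p z
      simpa [nsmul_eq_mul] using this
    rw [e]
    rw [← map_nsmul] at hR
    exact (AddEquiv.map_eq_zero_iff _).mp hR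
  exact exists_point_of_lattice h hcyc hp hznot (hcyc.le hpz)

/-- **VELU over `ℚbar`, points.** -/
theorem velu_Q_point (V : WeierstrassCurve ℚ) (hΔ : V.Δ ≠ 0) {p : ℕ} (hp : p.Prime)
    (Q R : (V⁄Kbar).Point) (hQ : addOrderOf Q = p) (hR : p • R = 0)
    (hRQ : R ∉ AddSubgroup.zmultiples Q) :
    ∃ hns : (veluCurve (V.baseChange Kbar) Q p).toAffine.Nonsingular
        (veluX (V.baseChange Kbar) Q p R) (veluY (V.baseChange Kbar) Q p R),
      addOrderOf (Affine.Point.some _ _ hns) = p := by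
  haveI := isElliptic_baseChange_C V hΔ
  have hQC : addOrderOf (pointToC V Q) = p := by rw [addOrderOf_pointToC, hQ]
  have hRC : p • pointToC V R = 0 := by rw [← map_nsmul, hR, map_zero]
  have hRQC : pointToC V R ∉ AddSubgroup.zmultiples (pointToC V Q) := by
    intro hm
    apply hRQ
    obtain ⟨n, hn⟩ := AddSubgroup.mem_zmultiples_iff.mp hm
    rw [← map_zsmul] at hn
    exact AddSubgroup.mem_zmultiples_iff.mpr ⟨n, pointToC_injective V hn⟩
  exact exists_point_of_C V Q R p
    (velu_C_point (V.baseChange ℂ) hp (pointToC V Q) hQC (pointToC V R) hRC hRQC)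

end Fermat.Agent.S12P.Points44
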